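import Fermat.Agent.S48.Defs

/-!
# S48, assembly G (Deligne–Serre §7–8): interfaces (helper43)

Plan: `NOTES/plan/W_S48.md` §3b.  All leaves here are GENERIC (no modular curves).

Chain:  `Stmt_ResRep` + `Stmt_Thin` + `Stmt_ChebSet` + `Stmt_SS2` + GroupBound + Lift  ⟹ `Stmt_ModLift`
        `Stmt_ModLift` + `Stmt_Int` + `Stmt_InjFin` + `Stmt_TraceSet` + DegOne          ⟹ `Stmt_Away`
        `Stmt_Away` + `Stmt_Cheb` + `Stmt_TraceTwo`                                      ⟹ `Stmt_Core`.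

* `Stmt_Thin`     (from `Stmt_Int` + `Stmt_Rankin`): for every `η > 0` the primes `p ∤ N` whose
                  `a_p` is outside a suitable finite set have upper Dirichlet density `≤ η`;
* `Stmt_ChebSet`  Chebotarev (lower bound, loss `η`) for an arbitrary subset of `G`;
* `Stmt_SS2`      semisimplification in dimension two;
* `Stmt_InjFin`   a finite set of nonzero algebraic integers stays nonzero mod every large `ℓ`;
* `Stmt_TraceSet` traces and determinants of elements of order `≤ B` of `GL₂(ℂ)` lie in a finite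
                  set of algebraic integers;
* `Stmt_TraceTwo` an element of finite order of `GL₂(ℂ)` with trace `2` is `1`.
-/

set_option autoImplicit false

open CongruenceSubgroup
open scoped MatrixGroups

namespace Fermat.Agent.S48.Asm

local notation "Γℚ" => (AlgebraicClosure ℚ ≃ₐ[ℚ] AlgebraicClosure ℚ)

/-- **Thin** (Deligne–Serre §8, from Rankin for all conjugates of `f`): for every `η > 0` there is
a finite set `Y` such that `∑_{p ∈ T} p^{-s} ≤ η log (1/(s-1)) + C` for every finite set `T` of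
primes `p ∤ N` with `a_p ∉ Y`. -/
def Stmt_Thin : Prop :=
  ∀ (N : ℕ) [NeZero N] (ε : DirichletCharacter ℂ N) (f : CuspForm (Gamma1 N) 1),
    IsDSForm N ε f → ∀ η : ℝ, 0 < η →
      ∃ (Y : Finset ℂ) (C : ℝ), ∀ s : ℝ, 1 < s → s ≤ 2 → ∀ T : Finset ℕ,
        (∀ p ∈ T, p.Prime ∧ ¬ p ∣ N ∧ ModularFormClass.qCoeff f p ∉ Y) →
          ∑ p ∈ T, (p : ℝ) ^ (-s) ≤ η * Real.log (1 / (s - 1)) + C

/-- **ChebSet**: `Stmt_Cheb` for an arbitrary subset `{g | Q g}` of `G`. -/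
def Stmt_ChebSet : Prop :=
  ∀ (G : Type) [Group G] [Finite G] (r : Γℚ →* G), GaloisFactorsThroughFiniteLevel r →
    Function.Surjective r → ∀ (S : Finset ℕ) (Q : G → Prop) (η : ℝ), 0 < η →
      ∃ C : ℝ, ∀ s : ℝ, 1 < s → s ≤ 2 →
        ∃ T : Finset ℕ, (∀ p ∈ T, p ∉ S ∧ ∃ g : G, Q g ∧ p ∈ frobPrimes r g) ∧
          (1 - η) * ((Nat.card {h : G // Q h} : ℝ) / (Nat.card G : ℝ)) *
              Real.log (1 / (s - 1)) - C ≤
            ∑ p ∈ T, (p : ℝ) ^ (-s)

/-- **SS2**: every two-dimensional representation has a semisimplification: same traces and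
determinants, kernel at least as large, and every stable line of the image has a stable
complement. -/
def Stmt_SS2 : Prop :=
  ∀ (k : Type) [Field k] (Γ : Type) [Group Γ] (ρ : Γ →* GL (Fin 2) k),
    ∃ ρ' : Γ →* GL (Fin 2) k, IsSemisimple2 ρ'.range ∧ (∀ σ : Γ, ρ σ = 1 → ρ' σ = 1) ∧
      ∀ σ : Γ,
        ((ρ' σ : GL (Fin 2) k) : Matrix (Fin 2) (Fin 2) k).trace =
          ((ρ σ : GL (Fin 2) k) : Matrix (Fin 2) (Fin 2) k).trace ∧
        ((ρ' σ : GL (Fin 2) k) : Matrix (Fin 2) (Fin 2) k).det =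
          ((ρ σ : GL (Fin 2) k) : Matrix (Fin 2) (Fin 2) k).det

/-- **InjFin**: a finite set of nonzero algebraic integers has nonzero image under every residue
map of large residue characteristic. -/
def Stmt_InjFin : Prop :=
  ∀ D : Finset (integralClosure ℤ ℂ), (0 : integralClosure ℤ ℂ) ∉ D →
    ∃ ℓ₁ : ℕ, ∀ ℓ : ℕ, ℓ.Prime → ℓ₁ ≤ ℓ →
      ∀ (k : Type) [Field k] [CharP k ℓ] (φ : integralClosure ℤ ℂ →+* k), ∀ d ∈ D, φ d ≠ 0

/-- **TraceSet**: the traces and determinants of the elements of order `≤ B` of `GL₂(ℂ)` are the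
values of finitely many algebraic integers. -/
def Stmt_TraceSet : Prop :=
  ∀ B : ℕ, ∃ Z : Finset (integralClosure ℤ ℂ), ∀ (g : GL (Fin 2) ℂ) (n : ℕ), 0 < n → n ≤ B →
    g ^ n = 1 →
      (∃ z ∈ Z, (z : ℂ) = ((g : GL (Fin 2) ℂ) : Matrix (Fin 2) (Fin 2) ℂ).trace) ∧
      (∃ z ∈ Z, (z : ℂ) = ((g : GL (Fin 2) ℂ) : Matrix (Fin 2) (Fin 2) ℂ).det)

/-- **TraceTwo**: an element of finite order of `GL₂(ℂ)` with trace `2` is the identity. -/
def Stmt_TraceTwo : Prop :=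
  ∀ (g : GL (Fin 2) ℂ) (n : ℕ), 0 < n → g ^ n = 1 →
    ((g : GL (Fin 2) ℂ) : Matrix (Fin 2) (Fin 2) ℂ).trace = 2 → g = 1

/-- **ModLift** (steps 3–5): for all large `ℓ` and every residue map `φ`, a complex
representation with image of order `≤ B` (independent of `ℓ`), of finite level, unramified
outside `N ℓ`, whose Frobenius traces and determinants are congruent to `a_p`, `ε(p)` under `φ`. -/
def Stmt_ModLift : Prop :=
  ∀ (N : ℕ) [NeZero N] (ε : DirichletCharacter ℂ N) (f : CuspForm (Gamma1 N) 1),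
    IsDSForm N ε f →
      ∃ B ℓ₀ : ℕ, ∀ ℓ : ℕ, ℓ.Prime → ℓ₀ ≤ ℓ →
        ∀ (k : Type) [Field k] [CharP k ℓ] [IsAlgClosed k] (φ : integralClosure ℤ ℂ →+* k),
          ∃ ρ : Γℚ →* GL (Fin 2) ℂ, GaloisFactorsThroughFiniteLevel ρ ∧
            Nat.card ρ.range ≤ B ∧
            ∀ p : ℕ, p.Prime → ¬ p ∣ N * ℓ →
              ∀ A : ValuationSubring (AlgebraicClosure ℚ), A.LiesOverPrime p →
                (∀ σ ∈ A.inertiaSubgroupIn ℚ, ρ σ = 1) ∧
                ∀ σ : Γℚ, A.IsFrobeniusAt σ p → ∀ t d a e : integralClosure ℤ ℂ,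
                  (t : ℂ) = ((ρ σ : GL (Fin 2) ℂ) : Matrix (Fin 2) (Fin 2) ℂ).trace →
                  (d : ℂ) = ((ρ σ : GL (Fin 2) ℂ) : Matrix (Fin 2) (Fin 2) ℂ).det →
                  (a : ℂ) = ModularFormClass.qCoeff f p → (e : ℂ) = ε (p : ZMod N) →
                    φ t = φ a ∧ φ d = φ e

/-- `ρ` is attached to `(f, ε)` away from `ℓ`. -/
def IsAttachedAway (N : ℕ) [NeZero N] (ε : DirichletCharacter ℂ N) (f : CuspForm (Gamma1 N) 1)
    (ℓ : ℕ) (ρ : Γℚ →* GL (Fin 2) ℂ) : Prop :=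
  GaloisFactorsThroughFiniteLevel ρ ∧
    ∀ p : ℕ, p.Prime → ¬ p ∣ N * ℓ →
      HasFrobCharpolyAt ρ p (ModularFormClass.qCoeff f p) (ε (p : ZMod N))

/-- **Away** (step 5, exactness): for infinitely many `ℓ` there is a representation attached to
`(f, ε)` away from `ℓ`. -/
def Stmt_Away : Prop :=
  ∀ (N : ℕ) [NeZero N] (ε : DirichletCharacter ℂ N) (f : CuspForm (Gamma1 N) 1),
    IsDSForm N ε f → ∀ B₀ : ℕ, ∃ ℓ : ℕ, ℓ.Prime ∧ B₀ ≤ ℓ ∧
      ∃ ρ : Γℚ →* GL (Fin 2) ℂ, IsAttachedAway N ε f ℓ ρ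

end Fermat.Agent.S48.Asm
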