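import Fermat.Agent.S48.Asm.Defs

/-!
# S48, assembly G, leaf G-InjFin (helper1)

`stmt_InjFin : Stmt_InjFin`: a finite set of nonzero algebraic integers has nonzero image under
every ring homomorphism to a field of large characteristic.

Proof: a nonzero algebraic integer `d` divides the constant term `c₀ ≠ 0` of its minimal
polynomial over `ℤ`; if `φ d = 0` then `φ c₀ = 0`, so `ℓ ∣ c₀` and `ℓ ≤ |c₀|`.
-/

set_option autoImplicit false
set_option linter.style.haveILetI false
set_option linter.unusedSectionVars false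

noncomputable section

namespace Fermat.Agent.S48.Asm.H01

open Polynomial

/-- The absolute value of the constant term of the minimal polynomial. -/
def constAbs (d : integralClosure ℤ ℂ) : ℕ := ((minpoly ℤ (d : ℂ)).coeff 0).natAbs

theorem constAbs_pos {d : integralClosure ℤ ℂ} (hd : d ≠ 0) : 0 < constAbs d := by
  unfold constAbs
  rw [Int.natAbs_pos]
  have hint : IsIntegral ℤ (d : ℂ) := d.2
  have hd' : (d : ℂ) ≠ 0 := fun h => hd (Subtype.ext h)
  have h1 : (minpoly ℚ (d : ℂ)).coeff 0 ≠ 0 :=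
    minpoly.coeff_zero_ne_zero hint.tower_top hd'
  rw [minpoly.isIntegrallyClosed_eq_field_fractions' ℚ hint, coeff_map] at h1
  intro h
  apply h1
  rw [h, map_zero]

/-- If `φ d = 0` for a ring homomorphism to a ring of characteristic `ℓ` then `ℓ` divides the
constant term of the minimal polynomial of `d`. -/
theorem dvd_constAbs_of_map_eq_zero (d : integralClosure ℤ ℂ) (ℓ : ℕ) (k : Type) [Field k]
    [CharP k ℓ] (φ : integralClosure ℤ ℂ →+* k) (h : φ d = 0) : ℓ ∣ constAbs d := by
  have hint : IsIntegral ℤ (d : ℂ) := d.2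
  set p := minpoly ℤ (d : ℂ) with hp
  have h0 : aeval (d : ℂ) p = 0 := minpoly.aeval ℤ (d : ℂ)
  have h1 : aeval d p = 0 := by
    apply Subtype.ext
    have := Subalgebra.aeval_coe (integralClosure ℤ ℂ) d p
    rw [← this, h0]
    rfl
  have h2 : aeval d (divX p) * d + algebraMap ℤ (integralClosure ℤ ℂ) (p.coeff 0) = 0 := by
    have h3 := congrArg (aeval d) (divX_mul_X_add p)
    rw [h1, map_add, map_mul, aeval_X, aeval_C] at h3
    exact h3
  have h4 := congrArg φ h2
  rw [map_add, map_mul, h, mul_zero, zero_add, map_zero, eq_intCast, map_intCast] at h4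
  have h5 : (ℓ : ℤ) ∣ p.coeff 0 := (CharP.intCast_eq_zero_iff k ℓ _).mp h4
  unfold constAbs
  exact Int.natCast_dvd.mp h5

/-- **G-InjFin.** -/
theorem stmt_InjFin : Stmt_InjFin := by
  intro D hD
  refine ⟨1 + ∑ d ∈ D, constAbs d, ?_⟩
  intro ℓ _ hℓ k _ _ φ d hd hφ
  have hd0 : d ≠ 0 := fun h => hD (h ▸ hd)
  have h1 := dvd_constAbs_of_map_eq_zero d ℓ k φ hφ
  have h2 := Nat.le_of_dvd (constAbs_pos hd0) h1
  have h3 : constAbs d ≤ ∑ d ∈ D, constAbs d :=
    Finset.single_le_sum (f := constAbs) (fun _ _ => Nat.zero_le _) hd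
  omega

end Fermat.Agent.S48.Asm.H01
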