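import Fermat.Agent.S48.Asm.H01_TraceTwo

/-!
# S48, assembly G, leaf G-TraceSet (helper1)

`stmt_TraceSet : Stmt_TraceSet`: the traces and determinants of the elements of order `≤ B` of
`GL₂(ℂ)` are the values of finitely many algebraic integers, namely the sums `α + β` and the
products `α β` of two roots of unity of order `≤ B`.
-/

set_option autoImplicit false
set_option linter.style.haveILetI false
set_option linter.unusedSectionVars false

open scoped MatrixGroups

noncomputable section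

namespace Fermat.Agent.S48.Asm.H01

open Polynomial

/-- The complex roots of unity of order `≤ B`. -/
def rootsLE (B : ℕ) : Finset ℂ :=
  (Finset.Icc 1 B).biUnion fun n => (Polynomial.nthRoots n (1 : ℂ)).toFinset

theorem mem_rootsLE {B n : ℕ} (hn : 0 < n) (hnB : n ≤ B) {ζ : ℂ} (h : ζ ^ n = 1) :
    ζ ∈ rootsLE B := by
  unfold rootsLE
  rw [Finset.mem_biUnion]
  refine ⟨n, Finset.mem_Icc.mpr ⟨hn, hnB⟩, ?_⟩
  rw [Multiset.mem_toFinset, Polynomial.mem_nthRoots hn]
  exact h

/-- The sums and the products of two roots of unity of order `≤ B`. -/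
def traceSetC (B : ℕ) : Finset ℂ :=
  ((rootsLE B ×ˢ rootsLE B).image fun p => p.1 + p.2) ∪
    ((rootsLE B ×ˢ rootsLE B).image fun p => p.1 * p.2)

theorem add_mem_traceSetC {B : ℕ} {α β : ℂ} (hα : α ∈ rootsLE B) (hβ : β ∈ rootsLE B) :
    α + β ∈ traceSetC B := by
  unfold traceSetC
  apply Finset.mem_union_left
  rw [Finset.mem_image]
  exact ⟨(α, β), Finset.mem_product.mpr ⟨hα, hβ⟩, rfl⟩

theorem mul_mem_traceSetC {B : ℕ} {α β : ℂ} (hα : α ∈ rootsLE B) (hβ : β ∈ rootsLE B) :
    α * β ∈ traceSetC B := by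
  unfold traceSetC
  apply Finset.mem_union_right
  rw [Finset.mem_image]
  exact ⟨(α, β), Finset.mem_product.mpr ⟨hα, hβ⟩, rfl⟩

/-- The same set, inside the ring of algebraic integers. -/
def traceSet (B : ℕ) : Finset (integralClosure ℤ ℂ) :=
  @Finset.subtype ℂ (fun x : ℂ => x ∈ integralClosure ℤ ℂ) (Classical.decPred _) (traceSetC B)

theorem mem_traceSet {B : ℕ} (z : integralClosure ℤ ℂ) :
    z ∈ traceSet B ↔ (z : ℂ) ∈ traceSetC B :=
  @Finset.mem_subtype ℂ (fun x : ℂ => x ∈ integralClosure ℤ ℂ) (Classical.decPred _)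
    (traceSetC B) z

/-- **G-TraceSet.** -/
theorem stmt_TraceSet : Stmt_TraceSet := by
  intro B
  refine ⟨traceSet B, ?_⟩
  intro g n hn hnB hg
  have hM : ((g : GL (Fin 2) ℂ) : Matrix (Fin 2) (Fin 2) ℂ) ^ n = 1 := by
    rw [← Units.val_pow_eq_pow_val, hg, Units.val_one]
  obtain ⟨α, β, hα, hβ, htr, hdet⟩ := exists_roots_two _ n hM
  have hαi : IsIntegral ℤ α := IsIntegral.of_pow hn (by rw [hα]; exact isIntegral_one)
  have hβi : IsIntegral ℤ β := IsIntegral.of_pow hn (by rw [hβ]; exact isIntegral_one)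
  have hαm := mem_rootsLE hn hnB hα
  have hβm := mem_rootsLE hn hnB hβ
  refine ⟨⟨⟨α + β, hαi.add hβi⟩, ?_, htr.symm⟩, ⟨⟨α * β, hαi.mul hβi⟩, ?_, hdet.symm⟩⟩
  · rw [mem_traceSet]
    exact add_mem_traceSetC hαm hβm
  · rw [mem_traceSet]
    exact mul_mem_traceSetC hαm hβm

end Fermat.Agent.S48.Asm.H01
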