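import Fermat.Agent.S48.Asm.Defs

/-!
# S48, assembly G, leaves G-TraceTwo and G-TraceSet (helper1)

* `eig_pow_eq_one`  : an eigenvalue of a matrix of finite order `n` is an `n`-th root of unity;
* `exists_roots_two` : a complex `2 × 2` matrix `M` with `M ^ n = 1` has eigenvalues `α`, `β`
  with `α ^ n = β ^ n = 1`, `tr M = α + β`, `det M = α β`;
* `stmt_TraceTwo : Stmt_TraceTwo` : finite order and trace `2` force `g = 1`;
* `stmt_TraceSet : Stmt_TraceSet` : traces and determinants of the elements of order `≤ B`.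
-/

set_option autoImplicit false
set_option linter.style.haveILetI false
set_option linter.unusedSectionVars false

open scoped MatrixGroups

noncomputable section

namespace Fermat.Agent.S48.Asm.H01

open Polynomial

/-- An eigenvalue of a matrix of finite order `m` is an `m`-th root of unity. -/
theorem eig_pow_eq_one {L : Type*} [Field L] {n : Type*} [Fintype n]
    [DecidableEq n] (Q : Matrix n n L) (m : ℕ) (hQ : Q ^ m = 1) (lam : L)
    (hlam : Q.charpoly.IsRoot lam) : lam ^ m = 1 := by
  have h0 : (Matrix.scalar n lam - Q).det = 0 := by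
    rw [← Matrix.eval_charpoly]
    exact hlam
  obtain ⟨v, hv, hv0⟩ := Matrix.exists_mulVec_eq_zero_iff.mpr h0
  have h1 : Q.mulVec v = lam • v := by
    rw [Matrix.sub_mulVec, sub_eq_zero] at hv0
    rw [← hv0]
    ext i
    simp [Matrix.mulVec, dotProduct, Matrix.scalar_apply, Matrix.diagonal_apply]
  have h2 : ∀ j : ℕ, (Q ^ j).mulVec v = lam ^ j • v := by
    intro j
    induction j with
    | zero => simp
    | succ j ih =>
      rw [pow_succ, ← Matrix.mulVec_mulVec, h1, Matrix.mulVec_smul, ih, smul_smul, pow_succ,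
        mul_comm]
  have h3 := h2 m
  rw [hQ, Matrix.one_mulVec] at h3
  by_contra hne
  apply hv
  have h4 : (lam ^ m - 1) • v = 0 := by
    rw [sub_smul, one_smul, ← h3, sub_self]
  rcases smul_eq_zero.mp h4 with h | h
  · exact absurd (sub_eq_zero.mp h) hne
  · exact h

/-- The two eigenvalues of a complex `2 × 2` matrix of finite order. -/
theorem exists_roots_two (M : Matrix (Fin 2) (Fin 2) ℂ) (n : ℕ) (hM : M ^ n = 1) :
    ∃ α β : ℂ, α ^ n = 1 ∧ β ^ n = 1 ∧ M.trace = α + β ∧ M.det = α * β := by
  have hcard : Multiset.card M.charpoly.roots = 2 := by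
    rw [IsAlgClosed.card_roots_eq_natDegree, Matrix.charpoly_natDegree_eq_dim,
      Fintype.card_fin]
  obtain ⟨α, β, hαβ⟩ := Multiset.card_eq_two.mp hcard
  have hα : α ∈ M.charpoly.roots := by rw [hαβ]; simp
  have hβ : β ∈ M.charpoly.roots := by rw [hαβ]; simp
  refine ⟨α, β, eig_pow_eq_one M n hM α (Polynomial.mem_roots'.mp hα).2,
    eig_pow_eq_one M n hM β (Polynomial.mem_roots'.mp hβ).2, ?_, ?_⟩
  · rw [Matrix.trace_eq_sum_roots_charpoly, hαβ]
    simp
  · rw [Matrix.det_eq_prod_roots_charpoly, hαβ]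
    simp

/-- A complex number of norm one with real part `≥ 1` is `1`. -/
theorem eq_one_of_norm_of_re {z : ℂ} (hz : ‖z‖ = 1) (hre : 1 ≤ z.re) : z = 1 := by
  have h1 : z.re ≤ 1 := by
    have := Complex.re_le_norm z
    rw [hz] at this
    exact this
  have hre1 : z.re = 1 := le_antisymm h1 hre
  have h2 : z.re * z.re + z.im * z.im = 1 := by
    have := Complex.normSq_apply z
    rw [Complex.normSq_eq_norm_sq, hz] at this
    linarith
  have him : z.im = 0 := by
    rw [hre1] at h2
    have : z.im * z.im = 0 := by linarith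
    exact mul_self_eq_zero.mp this
  exact Complex.ext (by rw [hre1, Complex.one_re]) (by rw [him, Complex.one_im])

/-- A complex `2 × 2` matrix of finite order with trace `2` is the identity. -/
theorem matrix_eq_one_of_trace_two (M : Matrix (Fin 2) (Fin 2) ℂ) (n : ℕ) (hn : 0 < n)
    (hM : M ^ n = 1) (ht : M.trace = 2) : M = 1 := by
  obtain ⟨α, β, hα, hβ, htr, hdet⟩ := exists_roots_two M n hM
  have hnα : ‖α‖ = 1 := Complex.norm_eq_one_of_pow_eq_one hα hn.ne'
  have hnβ : ‖β‖ = 1 := Complex.norm_eq_one_of_pow_eq_one hβ hn.ne'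
  have hsum : α + β = 2 := by rw [← htr, ht]
  have hre : α.re + β.re = 2 := by
    have := congrArg Complex.re hsum
    simpa using this
  have hαre : α.re ≤ 1 := by
    have := Complex.re_le_norm α
    rw [hnα] at this
    exact this
  have hβre : β.re ≤ 1 := by
    have := Complex.re_le_norm β
    rw [hnβ] at this
    exact this
  have hα1 : α = 1 := eq_one_of_norm_of_re hnα (by linarith)
  have hβ1 : β = 1 := eq_one_of_norm_of_re hnβ (by linarith)
  have hd : M.det = 1 := by rw [hdet, hα1, hβ1, mul_one]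
  -- Cayley–Hamilton: `(M - 1)² = 0`
  have hCH : M ^ 2 - (2 : ℂ) • M + 1 = 0 := by
    have h := Matrix.aeval_self_charpoly M
    rw [Matrix.charpoly_fin_two, ht, hd] at h
    simpa [Algebra.smul_def, two_smul, two_mul] using h
  set N : Matrix (Fin 2) (Fin 2) ℂ := M - 1 with hN
  have hN2 : N * N = 0 := by
    have : N * N = M ^ 2 - (2 : ℂ) • M + 1 := by
      rw [hN, two_smul]
      noncomm_ring
    rw [this, hCH]
  have hMN : M = 1 + N := by rw [hN]; abel
  have hpow : ∀ j : ℕ, M ^ j = 1 + (j : ℂ) • N := by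
    intro j
    induction j with
    | zero => simp
    | succ j ih =>
      have hstep : (1 + (j : ℂ) • N) * (1 + N) = 1 + ((j + 1 : ℕ) : ℂ) • N := by
        rw [add_mul, mul_add, mul_add, one_mul, mul_one, one_mul, Matrix.smul_mul, hN2,
          smul_zero, add_zero]
        push_cast
        rw [add_smul, one_smul]
        abel
      rw [pow_succ, ih]
      calc (1 + (j : ℂ) • N) * M = (1 + (j : ℂ) • N) * (1 + N) := by rw [← hMN]
        _ = 1 + ((j + 1 : ℕ) : ℂ) • N := hstep
  have h1 := hpow n
  rw [hM] at h1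
  have h2 : (n : ℂ) • N = 0 := by
    have := h1.symm
    rwa [add_eq_left] at this
  rcases smul_eq_zero.mp h2 with h | h
  · exfalso
    have : (n : ℂ) ≠ 0 := by exact_mod_cast hn.ne'
    exact this h
  · rw [hMN, h, add_zero]

/-- **G-TraceTwo.** -/
theorem stmt_TraceTwo : Stmt_TraceTwo := by
  intro g n hn hg ht
  have hM : ((g : GL (Fin 2) ℂ) : Matrix (Fin 2) (Fin 2) ℂ) ^ n = 1 := by
    rw [← Units.val_pow_eq_pow_val, hg, Units.val_one]
  exact Units.ext (matrix_eq_one_of_trace_two _ n hn hM ht)

end Fermat.Agent.S48.Asm.H01
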