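import Fermat.Agent.S48.Asm.H43_Lemmas
import Fermat.Agent.Lib.FrobExists

/-!
# S48 assembly, step 5 (exactness): `Stmt_Away` (helper43)

`away_of : Stmt_Int → Stmt_ModLift → Stmt_InjFin → Stmt_TraceSet → Stmt_DegOne → Stmt_Away`.
-/

set_option autoImplicit false
set_option linter.unusedSectionVars false
set_option linter.style.haveILetI false

open CongruenceSubgroup
open scoped MatrixGroups

namespace Fermat.Agent.S48.Asm.H43

local notation "Γℚ" => (AlgebraicClosure ℚ ≃ₐ[ℚ] AlgebraicClosure ℚ)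

/-- Every value of a homomorphism with range of order `≤ B` has order `≤ B`. -/
lemma exists_pow_eq_one_le {M : Type} [Group M] (ρ : Γℚ →* M) [Finite ρ.range] (B : ℕ)
    (hB : Nat.card ρ.range ≤ B) (σ : Γℚ) : ∃ n : ℕ, 0 < n ∧ n ≤ B ∧ ρ σ ^ n = 1 := by
  refine ⟨orderOf (ρ.rangeRestrict σ), orderOf_pos _, ?_, ?_⟩
  · exact (Nat.le_of_dvd Nat.card_pos (orderOf_dvd_natCard _)).trans hB
  · have h1 := pow_orderOf_eq_one (ρ.rangeRestrict σ)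
    have h2 : ((ρ.rangeRestrict σ ^ orderOf (ρ.rangeRestrict σ) : ρ.range) : M) =
        ((1 : ρ.range) : M) := congrArg Subtype.val h1
    rw [Subgroup.coe_pow, Subgroup.coe_one] at h2
    exact h2

theorem away_of (hInt : Stmt_Int) (hML : Stmt_ModLift) (hIF : Stmt_InjFin)
    (hTS : Stmt_TraceSet) (hDO : Stmt_DegOne) : Stmt_Away := by
  intro N _ ε f hf B₀
  classical
  obtain ⟨B, ℓ₀, hML'⟩ := hML N ε f hf
  obtain ⟨Z, hZ⟩ := hTS B
  have hbot : FiniteDimensional ℚ (⊥ : IntermediateField ℚ ℂ) := inferInstance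
  -- a representation for every large `ℓ` given by DegOne
  have hrep : ∀ B' : ℕ, ∃ (ℓ : ℕ) (k : Type) (_ : Field k) (_ : CharP k ℓ)
      (φ : integralClosure ℤ ℂ →+* k) (ρ : Γℚ →* GL (Fin 2) ℂ), ℓ.Prime ∧ B' ≤ ℓ ∧
      GaloisFactorsThroughFiniteLevel ρ ∧ Nat.card ρ.range ≤ B ∧
      ∀ p : ℕ, p.Prime → ¬ p ∣ N * ℓ →
        ∀ A : ValuationSubring (AlgebraicClosure ℚ), A.LiesOverPrime p →
          (∀ σ ∈ A.inertiaSubgroupIn ℚ, ρ σ = 1) ∧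
          ∀ σ : Γℚ, A.IsFrobeniusAt σ p → ∀ t d a e : integralClosure ℤ ℂ,
            (t : ℂ) = ((ρ σ : GL (Fin 2) ℂ) : Matrix (Fin 2) (Fin 2) ℂ).trace →
            (d : ℂ) = ((ρ σ : GL (Fin 2) ℂ) : Matrix (Fin 2) (Fin 2) ℂ).det →
            (a : ℂ) = ModularFormClass.qCoeff f p → (e : ℂ) = ε (p : ZMod N) →
              φ t = φ a ∧ φ d = φ e := by
    intro B'
    obtain ⟨ℓ, hℓ, hℓge, hφ⟩ := hDO ⊥ hbot (max B' ℓ₀)
    haveI : Fact ℓ.Prime := ⟨hℓ⟩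
    obtain ⟨φ, -⟩ := hφ (AlgebraicClosure (ZMod ℓ))
    obtain ⟨ρ, hfl, hcard, hρ⟩ := hML' ℓ hℓ (le_trans (le_max_right _ _) hℓge)
      (AlgebraicClosure (ZMod ℓ)) φ
    exact ⟨ℓ, AlgebraicClosure (ZMod ℓ), inferInstance, inferInstance, φ, ρ, hℓ,
      le_trans (le_max_left _ _) hℓge, hfl, hcard, hρ⟩
  -- Claim A: `a_p` and `ε(p)` are values of elements of `Z`
  have claimA : ∀ p : ℕ, p.Prime → ¬ p ∣ N →
      (∃ z ∈ Z, (z : ℂ) = ModularFormClass.qCoeff f p) ∧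
      (∃ z ∈ Z, (z : ℂ) = ε (p : ZMod N)) := by
    intro p hp hpN
    have hai := (hInt N ε f hf).1 p hp hpN
    have hei := isIntegral_dirichlet N ε (p : ZMod N)
    set a : integralClosure ℤ ℂ := ⟨_, hai⟩ with ha
    set e : integralClosure ℤ ℂ := ⟨_, hei⟩ with he
    by_contra hcon
    set D : Finset (integralClosure ℤ ℂ) :=
      ((Z.image (fun z => z - a)) ∪ (Z.image (fun z => z - e))).erase 0 with hD
    obtain ⟨ℓ₁, hℓ₁⟩ := hIF D (Finset.notMem_erase 0 _)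
    obtain ⟨ℓ, k, _, _, φ, ρ, hℓ, hℓge, hfl, hcard, hρ⟩ := hrep (max ℓ₁ (p + 1))
    have hpℓ : p ≠ ℓ := by
      have : p + 1 ≤ ℓ := le_trans (le_max_right _ _) hℓge
      omega
    have hpNℓ : ¬ p ∣ N * ℓ := by
      intro hd
      rcases (Nat.Prime.dvd_mul hp).mp hd with h | h
      · exact hpN h
      · exact hpℓ ((Nat.prime_dvd_prime_iff_eq hp hℓ).mp h)
    obtain ⟨A, σ, hA, hσ⟩ := Fermat.Agent.Lib.FrobExists.exists_place_and_frobenius p hp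
    haveI : Finite ρ.range := Fermat.Agent.S48.H55.finite_range_of_finiteLevel ρ hfl
    obtain ⟨n, hn, hnB, hpow⟩ := exists_pow_eq_one_le ρ B hcard σ
    obtain ⟨⟨zt, hzt, hzt'⟩, ⟨zd, hzd, hzd'⟩⟩ := hZ (ρ σ) n hn hnB hpow
    obtain ⟨h1, h2⟩ := (hρ p hp hpNℓ A hA).2 σ hσ zt zd a e hzt' hzd' rfl rfl
    apply hcon
    constructor
    · refine ⟨zt, hzt, ?_⟩
      by_contra hne
      have hne' : zt - a ≠ 0 := fun h => hne (by rw [sub_eq_zero.mp h])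
      have hmem : zt - a ∈ D := Finset.mem_erase.mpr ⟨hne',
        Finset.mem_union_left _ (Finset.mem_image.mpr ⟨zt, hzt, rfl⟩)⟩
      exact hℓ₁ ℓ hℓ (le_trans (le_max_left _ _) hℓge) k φ _ hmem (by rw [map_sub, h1, sub_self])
    · refine ⟨zd, hzd, ?_⟩
      by_contra hne
      have hne' : zd - e ≠ 0 := fun h => hne (by rw [sub_eq_zero.mp h])
      have hmem : zd - e ∈ D := Finset.mem_erase.mpr ⟨hne',
        Finset.mem_union_right _ (Finset.mem_image.mpr ⟨zd, hzd, rfl⟩)⟩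
      exact hℓ₁ ℓ hℓ (le_trans (le_max_left _ _) hℓge) k φ _ hmem (by rw [map_sub, h2, sub_self])
  -- exactness for large `ℓ`
  set D' : Finset (integralClosure ℤ ℂ) :=
    ((Z ×ˢ Z).image (fun x => x.1 - x.2)).erase 0 with hD'
  obtain ⟨ℓ₂, hℓ₂⟩ := hIF D' (Finset.notMem_erase 0 _)
  obtain ⟨ℓ, k, _, _, φ, ρ, hℓ, hℓge, hfl, hcard, hρ⟩ := hrep (max B₀ ℓ₂)
  haveI : Finite ρ.range := Fermat.Agent.S48.H55.finite_range_of_finiteLevel ρ hfl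
  refine ⟨ℓ, hℓ, le_trans (le_max_left _ _) hℓge, ρ, hfl, fun p hp hpNℓ A hA =>
    ⟨(hρ p hp hpNℓ A hA).1, fun σ hσ => ?_⟩⟩
  have hpN : ¬ p ∣ N := fun h => hpNℓ (Dvd.dvd.mul_right h ℓ)
  obtain ⟨⟨za, hza, hza'⟩, ⟨ze, hze, hze'⟩⟩ := claimA p hp hpN
  obtain ⟨n, hn, hnB, hpow⟩ := exists_pow_eq_one_le ρ B hcard σ
  obtain ⟨⟨zt, hzt, hzt'⟩, ⟨zd, hzd, hzd'⟩⟩ := hZ (ρ σ) n hn hnB hpow
  obtain ⟨h1, h2⟩ := (hρ p hp hpNℓ A hA).2 σ hσ zt zd za ze hzt' hzd' hza' hze'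
  have key : ∀ x y : integralClosure ℤ ℂ, x ∈ Z → y ∈ Z → φ x = φ y → x = y := by
    intro x y hx hy hxy
    by_contra hne
    have hmem : x - y ∈ D' := Finset.mem_erase.mpr ⟨sub_ne_zero.mpr hne,
      Finset.mem_image.mpr ⟨(x, y), Finset.mem_product.mpr ⟨hx, hy⟩, rfl⟩⟩
    exact hℓ₂ ℓ hℓ (le_trans (le_max_right _ _) hℓge) k φ _ hmem (by rw [map_sub, hxy, sub_self])
  constructor
  · rw [← hzt', ← hza', key zt za hzt hza h1]
  · rw [← hzd', ← hze', key zd ze hzd hze h2]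

end Fermat.Agent.S48.Asm.H43
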