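import Fermat.Agent.S48.Asm.H43_Lemmas

/-!
# S48 assembly, steps 6–7: `Stmt_Core` (helper43)

`core_of : Stmt_Away → Stmt_ChebSet → Stmt_TraceTwo → Stmt_Core`.

Two representations attached to `(f, ε)` away from `ℓ ≠ ℓ'` have the same traces and determinants
at all Frobenius elements outside `N ℓ ℓ'`, hence everywhere (Chebotarev), hence the same kernel
(an element of finite order of `GL₂(ℂ)` with trace `2` is `1`); so the first one is unramified at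
`ℓ` as well, with the right Frobenius there.
-/

set_option autoImplicit false
set_option linter.unusedSectionVars false
set_option linter.style.haveILetI false

open CongruenceSubgroup
open scoped MatrixGroups

namespace Fermat.Agent.S48.Asm.H43

local notation "Γℚ" => (AlgebraicClosure ℚ ≃ₐ[ℚ] AlgebraicClosure ℚ)

/-- The product of two homomorphisms of finite level has finite level. -/
lemma finiteLevel_prod {M M' : Type} [Group M] [Group M'] (ρ : Γℚ →* M) (ρ' : Γℚ →* M')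
    (h : GaloisFactorsThroughFiniteLevel ρ) (h' : GaloisFactorsThroughFiniteLevel ρ') :
    GaloisFactorsThroughFiniteLevel (ρ.prod ρ') := by
  obtain ⟨L, hL, hρ⟩ := h
  obtain ⟨L', hL', hρ'⟩ := h'
  haveI := hL
  haveI := hL'
  refine ⟨L ⊔ L', IntermediateField.finiteDimensional_sup L L', fun σ hσ => ?_⟩
  have h1 : ρ σ = 1 := hρ σ (fun x hx => hσ x ((le_sup_left : L ≤ L ⊔ L') hx))
  have h2 : ρ' σ = 1 := hρ' σ (fun x hx => hσ x ((le_sup_right : L' ≤ L ⊔ L') hx))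
  rw [MonoidHom.prod_apply, h1, h2]
  rfl

/-- Two representations attached away from `ℓ`, `ℓ'` agree, up to conjugation of values, on a
Frobenius element outside `N ℓ ℓ'`: every `τ` has the same image under both as some such
Frobenius. -/
theorem exists_frob_same (hCS : Stmt_ChebSet) (ρ ρ' : Γℚ →* GL (Fin 2) ℂ)
    (hfl : GaloisFactorsThroughFiniteLevel ρ) (hfl' : GaloisFactorsThroughFiniteLevel ρ')
    (S : Finset ℕ) (τ : Γℚ) :
    ∃ (p : ℕ) (A : ValuationSubring (AlgebraicClosure ℚ)) (σ : Γℚ), p.Prime ∧ p ∉ S ∧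
      A.LiesOverPrime p ∧ A.IsFrobeniusAt σ p ∧ ρ σ = ρ τ ∧ ρ' σ = ρ' τ := by
  set r₀ : Γℚ →* GL (Fin 2) ℂ × GL (Fin 2) ℂ := ρ.prod ρ' with hr₀
  have hfl₀ : GaloisFactorsThroughFiniteLevel r₀ := finiteLevel_prod ρ ρ' hfl hfl'
  haveI : Finite r₀.range := Fermat.Agent.S48.H55.finite_range_of_finiteLevel r₀ hfl₀
  set r : Γℚ →* r₀.range := r₀.rangeRestrict with hr
  have hrs : Function.Surjective r := r₀.rangeRestrict_surjective
  have hrfl : GaloisFactorsThroughFiniteLevel r := by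
    refine finiteLevel_of_imp r₀ r (fun σ hσ => ?_) hfl₀
    apply Subtype.ext
    exact hσ
  obtain ⟨p, hpS, hpr, A, σ, hA, hσ, hrσ⟩ := exists_frobPrime hCS r hrfl hrs S (r τ)
  have h1 : r₀ σ = r₀ τ := congrArg Subtype.val hrσ
  rw [hr₀, MonoidHom.prod_apply, MonoidHom.prod_apply, Prod.mk.injEq] at h1
  exact ⟨p, A, σ, hpr, hpS, hA, hσ, h1.1, h1.2⟩

theorem core_of (hAway : Stmt_Away) (hCS : Stmt_ChebSet) (hT2 : Stmt_TraceTwo) : Stmt_Core := by
  intro N _ ε f hf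
  obtain ⟨ℓ, hℓ, -, ρ, hfl, hρ⟩ := hAway N ε f hf 0
  obtain ⟨ℓ', hℓ', hℓ'ge, ρ', hfl', hρ'⟩ := hAway N ε f hf (ℓ + 1)
  have hne : ℓ ≠ ℓ' := by omega
  have hN0 : N * ℓ * ℓ' ≠ 0 :=
    Nat.mul_ne_zero (Nat.mul_ne_zero (NeZero.ne N) hℓ.ne_zero) hℓ'.ne_zero
  -- traces and determinants agree everywhere
  have hsame : ∀ τ : Γℚ,
      ((ρ τ : GL (Fin 2) ℂ) : Matrix (Fin 2) (Fin 2) ℂ).trace =
        ((ρ' τ : GL (Fin 2) ℂ) : Matrix (Fin 2) (Fin 2) ℂ).trace ∧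
      ((ρ τ : GL (Fin 2) ℂ) : Matrix (Fin 2) (Fin 2) ℂ).det =
        ((ρ' τ : GL (Fin 2) ℂ) : Matrix (Fin 2) (Fin 2) ℂ).det := by
    intro τ
    obtain ⟨p, A, σ, hp, hpS, hA, hσ, h1, h2⟩ :=
      exists_frob_same hCS ρ ρ' hfl hfl' (N * ℓ * ℓ').primeFactors τ
    have hpd : ¬ p ∣ N * ℓ * ℓ' := fun hd => hpS (Nat.mem_primeFactors.mpr ⟨hp, hd, hN0⟩)
    have hp1 : ¬ p ∣ N * ℓ := fun h => hpd (Dvd.dvd.mul_right h ℓ')
    have hp2 : ¬ p ∣ N * ℓ' := by
      intro h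
      apply hpd
      have : N * ℓ * ℓ' = N * ℓ' * ℓ := by ring
      rw [this]
      exact Dvd.dvd.mul_right h ℓ
    obtain ⟨ht, hd⟩ := (hρ p hp hp1 A hA).2 σ hσ
    obtain ⟨ht', hd'⟩ := (hρ' p hp hp2 A hA).2 σ hσ
    rw [← h1, ← h2, ht, ht', hd, hd']
    exact ⟨rfl, rfl⟩
  -- the kernels agree
  have hker : ∀ τ : Γℚ, ρ' τ = 1 → ρ τ = 1 := by
    intro τ hτ
    obtain ⟨n, hn, hpow⟩ := Fermat.Agent.S48.H55.exists_pow_eq_one_of_finiteLevel ρ hfl τ
    refine hT2 (ρ τ) n hn hpow ?_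
    rw [(hsame τ).1, hτ]
    simp
  refine ⟨ρ, hfl, fun p hp hpN A hA => ?_⟩
  by_cases hpℓ : p = ℓ
  · have hp2 : ¬ p ∣ N * ℓ' := by
      intro hd
      rcases (Nat.Prime.dvd_mul hp).mp hd with h | h
      · exact hpN h
      · exact hne (hpℓ ▸ (Nat.prime_dvd_prime_iff_eq hp hℓ').mp h)
    obtain ⟨hin, hfr⟩ := hρ' p hp hp2 A hA
    refine ⟨fun σ hσ => hker σ (hin σ hσ), fun σ hσ => ?_⟩
    obtain ⟨ht', hd'⟩ := hfr σ hσ
    exact ⟨(hsame σ).1.trans ht', (hsame σ).2.trans hd'⟩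
  · have hp1 : ¬ p ∣ N * ℓ := by
      intro hd
      rcases (Nat.Prime.dvd_mul hp).mp hd with h | h
      · exact hpN h
      · exact hpℓ ((Nat.prime_dvd_prime_iff_eq hp hℓ).mp h)
    exact hρ p hp hp1 A hA

end Fermat.Agent.S48.Asm.H43
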