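import Fermat.Agent.S48.Asm.Defs
import Fermat.Agent.S48.H55_GroupBound
import Fermat.Agent.S48.H55_IrrLine

/-!
# S48 assembly: small lemmas (helper43)

* `le_zero_of_mul_log_le`: `c log (1/(s-1)) ≤ C` on `(1, 2]` forces `c ≤ 0`;
* `groupBound'`: `Stmt_GroupBound` without the hypotheses on `ℓ` (helper55's proof);
* `isIntegral_dirichlet`: the values of a Dirichlet character are algebraic integers;
* `exists_frobPrime`: every element of a finite quotient is a Frobenius outside `S`.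
-/

set_option autoImplicit false
set_option linter.unusedSectionVars false
set_option linter.style.haveILetI false

open CongruenceSubgroup
open scoped MatrixGroups

namespace Fermat.Agent.S48.Asm.H43

local notation "Γℚ" => (AlgebraicClosure ℚ ≃ₐ[ℚ] AlgebraicClosure ℚ)

/-- Finite level passes to homomorphisms which are trivial where the given one is. -/
theorem finiteLevel_of_imp {M M' : Type} [MulOneClass M] [MulOneClass M'] (ρ : Γℚ →* M)
    (θ : Γℚ →* M') (h : ∀ σ, ρ σ = 1 → θ σ = 1) (hρ : GaloisFactorsThroughFiniteLevel ρ) :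
    GaloisFactorsThroughFiniteLevel θ := by
  obtain ⟨L, hL, hL'⟩ := hρ
  exact ⟨L, hL, fun σ hσ => h σ (hL' σ hσ)⟩

/-- `c log (1/(s-1)) ≤ C` on `(1, 2]` forces `c ≤ 0`. -/
lemma le_zero_of_mul_log_le (c C : ℝ)
    (h : ∀ s : ℝ, 1 < s → s ≤ 2 → c * Real.log (1 / (s - 1)) ≤ C) : c ≤ 0 := by
  by_contra hc
  push Not at hc
  set t : ℝ := max 0 (C / c + 1) with ht
  have ht0 : 0 ≤ t := le_max_left _ _
  have ht1 : C / c + 1 ≤ t := le_max_right _ _
  have hs1 : (1 : ℝ) < 1 + Real.exp (-t) := by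
    have := Real.exp_pos (-t)
    linarith
  have hs2 : 1 + Real.exp (-t) ≤ 2 := by
    have : Real.exp (-t) ≤ 1 := Real.exp_le_one_iff.mpr (by linarith)
    linarith
  have h1 := h _ hs1 hs2
  have h2 : Real.log (1 / (1 + Real.exp (-t) - 1)) = t := by
    rw [add_sub_cancel_left, one_div, ← Real.exp_neg, neg_neg, Real.log_exp]
  rw [h2] at h1
  have h3 : C / c * c = C := div_mul_cancel₀ C hc.ne'
  have h4 : c * (C / c + 1) ≤ c * t := mul_le_mul_of_nonneg_left ht1 hc.le
  nlinarith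

/-- `Stmt_GroupBound` without the hypotheses on `ℓ` (they are not used in helper55's proof). -/
theorem groupBound' (M : ℕ) : ∃ B : ℕ, ∀ (k : Type) [Field k]
    (G : Subgroup (GL (Fin 2) k)) (H : Set (GL (Fin 2) k)) (Y : Finset (k × k)),
    Finite G → IsSemisimple2 G →
    (∀ h ∈ H, ((h : Matrix (Fin 2) (Fin 2) k).trace, (h : Matrix (Fin 2) (Fin 2) k).det) ∈ Y) →
    Y.card ≤ M →
    120 * Nat.card {g : GL (Fin 2) k // g ∈ G ∧ g ∉ H} ≤ Nat.card G →
    Nat.card G ≤ B := by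
  refine ⟨2 * M ^ 4 + 3 * M, ?_⟩
  intro k _ G H Y hfin hss hHY hY hcount
  classical
  haveI := hfin
  set Gf : Finset (GL (Fin 2) k) := (Set.toFinite (G : Set (GL (Fin 2) k))).toFinset
    with hGfdef
  have hGf : ∀ g, g ∈ Gf ↔ g ∈ G := fun g => by
    rw [hGfdef, Set.Finite.mem_toFinset]
    rfl
  have hcardG : Nat.card G = Gf.card := Nat.subtype_card Gf hGf
  set Bd : Finset (GL (Fin 2) k) := Gf.filter (fun g => g ∉ H) with hBddef
  have hBd : ∀ g, g ∈ Bd ↔ g ∈ G ∧ g ∉ H := fun g => by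
    rw [hBddef, Finset.mem_filter, hGf]
  have hcardB : Nat.card {g : GL (Fin 2) k // g ∈ G ∧ g ∉ H} = Bd.card :=
    Nat.subtype_card _ hBd
  rw [hcardG, hcardB] at hcount
  rw [hcardG]
  by_cases hsp : ∃ b : Fin 4 → GL (Fin 2) k, (∀ i, b i ∈ G) ∧
      LinearIndependent k (fun i => ((b i : GL (Fin 2) k) : Matrix (Fin 2) (Fin 2) k))
  · obtain ⟨b, hbG, hb⟩ := hsp
    have h1 := Fermat.Agent.S48.H55.card_le_of_span G H Y Gf hGf hHY b hbG hb Bd hBd
    have h2 : Y.card ^ 4 ≤ M ^ 4 := Nat.pow_le_pow_left hY 4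
    generalize M ^ 4 = A at h2 ⊢
    generalize Y.card ^ 4 = A' at h1 h2
    omega
  · have hns : ∀ b : Fin 4 → GL (Fin 2) k, (∀ i, b i ∈ G) →
        ¬ LinearIndependent k (fun i => ((b i : GL (Fin 2) k) : Matrix (Fin 2) (Fin 2) k)) :=
      fun b hb hli => hsp ⟨b, hb, hli⟩
    have hab : ∀ g ∈ G, ∀ h ∈ G,
        (g : Matrix (Fin 2) (Fin 2) k) * (h : Matrix (Fin 2) (Fin 2) k) = h * g :=
      fun g hg h hh => Fermat.Agent.S48.H55.abelian_of_not_span G hss hns g h hg hh
    have h1 := Fermat.Agent.S48.H55.card_le_of_abelian G hss hab H Y Gf hGf hHY Bd hBd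
    generalize M ^ 4 = A
    omega

/-- The values of a Dirichlet character are algebraic integers. -/
lemma isIntegral_dirichlet (N : ℕ) [NeZero N] (ε : DirichletCharacter ℂ N) (x : ZMod N) :
    IsIntegral ℤ (ε x) := by
  by_cases hx : IsUnit x
  · obtain ⟨u, rfl⟩ := hx
    have h1 : (ε (u : ZMod N)) ^ (Fintype.card (ZMod N)ˣ) = 1 := by
      rw [← map_pow, ← Units.val_pow_eq_pow_val, pow_card_eq_one, Units.val_one, map_one]
    exact IsIntegral.of_pow Fintype.card_pos (by rw [h1]; exact isIntegral_one)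
  · rw [MulChar.map_nonunit ε hx]
    exact isIntegral_zero

/-- Every element of a finite quotient of `Γℚ` is the image of a Frobenius element at some prime
outside a given finite set. -/
theorem exists_frobPrime (hCS : Stmt_ChebSet) {G : Type} [Group G] [Finite G] (r : Γℚ →* G)
    (hfl : GaloisFactorsThroughFiniteLevel r) (hr : Function.Surjective r) (S : Finset ℕ)
    (g : G) : ∃ p : ℕ, p ∉ S ∧ p ∈ frobPrimes r g := by
  obtain ⟨C, hC⟩ := hCS G r hfl hr S (fun h => h = g) (1 / 2) (by norm_num)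
  by_contra hcon
  push Not at hcon
  have hcard : Nat.card {h : G // h = g} = 1 := by
    rw [Nat.card_eq_one_iff_unique]
    exact ⟨⟨fun a b => Subtype.ext (a.2.trans b.2.symm)⟩, ⟨⟨g, rfl⟩⟩⟩
  have hGpos : (0 : ℝ) < (Nat.card G : ℝ) := by exact_mod_cast Nat.card_pos
  have key : ∀ s : ℝ, 1 < s → s ≤ 2 →
      ((1 - 1 / 2) * ((1 : ℝ) / (Nat.card G : ℝ))) * Real.log (1 / (s - 1)) ≤ C := by
    intro s hs1 hs2
    obtain ⟨T, hT, hle⟩ := hC s hs1 hs2
    have hTe : T = ∅ := by
      rw [Finset.eq_empty_iff_forall_notMem]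
      intro p hp
      obtain ⟨hpS, g', hg', hpg⟩ := hT p hp
      rw [hg'] at hpg
      exact hcon p hpS hpg
    rw [hTe, Finset.sum_empty, hcard, Nat.cast_one] at hle
    linarith
  have := le_zero_of_mul_log_le _ _ key
  have hpos : 0 < (1 - 1 / 2) * ((1 : ℝ) / (Nat.card G : ℝ)) := by positivity
  linarith

end Fermat.Agent.S48.Asm.H43
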