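import Fermat.Agent.S48.Asm.H43_Lemmas

/-!
# S48 assembly, steps 3–5: `Stmt_ModLift` (helper43)

`modLift_of : Stmt_Int → Stmt_ResRep → Stmt_Thin → Stmt_ChebSet → Stmt_SS2 → Stmt_Lift →
  Stmt_ModLift`.
-/

set_option autoImplicit false
set_option linter.unusedSectionVars false
set_option linter.style.haveILetI false

open CongruenceSubgroup
open scoped MatrixGroups

namespace Fermat.Agent.S48.Asm.H43

local notation "Γℚ" => (AlgebraicClosure ℚ ≃ₐ[ℚ] AlgebraicClosure ℚ)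

/-- A prime outside the prime factors of `n ≠ 0` does not divide `n`. -/
lemma not_dvd_of_notMem_primeFactors {p n : ℕ} (hp : p.Prime) (hn : n ≠ 0)
    (h : p ∉ n.primeFactors) : ¬ p ∣ n := fun hd =>
  h (Nat.mem_primeFactors.mpr ⟨hp, hd, hn⟩)

/-- The density step: the elements of the image outside `H` have density at most `1/120`. -/
theorem card_bad_le (hInt : Stmt_Int) (hCS : Stmt_ChebSet)
    (N : ℕ) [NeZero N] (ε : DirichletCharacter ℂ N) (f : CuspForm (Gamma1 N) 1)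
    (hf : IsDSForm N ε f) (Y : Finset ℂ) (C₀ : ℝ)
    (hY : ∀ s : ℝ, 1 < s → s ≤ 2 → ∀ T : Finset ℕ,
        (∀ p ∈ T, p.Prime ∧ ¬ p ∣ N ∧ ModularFormClass.qCoeff f p ∉ Y) →
          ∑ p ∈ T, (p : ℝ) ^ (-s) ≤ (1 / 240) * Real.log (1 / (s - 1)) + C₀)
    (ℓ : ℕ) (hℓ : ℓ.Prime) (k : Type) [Field k] (φ : integralClosure ℤ ℂ →+* k)
    (ρ' : Γℚ →* GL (Fin 2) k) (hfl : GaloisFactorsThroughFiniteLevel ρ')
    (hfrob : ∀ p : ℕ, p.Prime → ¬ p ∣ N * ℓ →
      ∀ a e : integralClosure ℤ ℂ, (a : ℂ) = ModularFormClass.qCoeff f p →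
        (e : ℂ) = ε (p : ZMod N) →
        ∀ A : ValuationSubring (AlgebraicClosure ℚ), A.LiesOverPrime p →
          ∀ σ : Γℚ, A.IsFrobeniusAt σ p →
            ((ρ' σ : GL (Fin 2) k) : Matrix (Fin 2) (Fin 2) k).trace = φ a ∧
            ((ρ' σ : GL (Fin 2) k) : Matrix (Fin 2) (Fin 2) k).det = φ e)
    (H : Set (GL (Fin 2) k))
    (hH : ∀ a e : integralClosure ℤ ℂ, (a : ℂ) ∈ Y → ∀ g : GL (Fin 2) k,
      (g : Matrix (Fin 2) (Fin 2) k).trace = φ a → (g : Matrix (Fin 2) (Fin 2) k).det = φ e →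
      (∃ x : ZMod N, (e : ℂ) = ε x) → g ∈ H) :
    120 * Nat.card {g : GL (Fin 2) k // g ∈ ρ'.range ∧ g ∉ H} ≤ Nat.card ρ'.range := by
  classical
  haveI : Finite ρ'.range := Fermat.Agent.S48.H55.finite_range_of_finiteLevel ρ' hfl
  have hNℓ : N * ℓ ≠ 0 := Nat.mul_ne_zero (NeZero.ne N) hℓ.ne_zero
  set r : Γℚ →* ρ'.range := ρ'.rangeRestrict with hr
  have hrs : Function.Surjective r := ρ'.rangeRestrict_surjective
  have hrfl : GaloisFactorsThroughFiniteLevel r := by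
    refine finiteLevel_of_imp ρ' r (fun σ hσ => ?_) hfl
    apply Subtype.ext
    exact hσ
  obtain ⟨C₁, hC₁⟩ := hCS ρ'.range r hrfl hrs (N * ℓ).primeFactors
    (fun z => (z : GL (Fin 2) k) ∉ H) (1 / 2) (by norm_num)
  have hcardeq : Nat.card {z : ρ'.range // (z : GL (Fin 2) k) ∉ H} =
      Nat.card {g : GL (Fin 2) k // g ∈ ρ'.range ∧ g ∉ H} :=
    Nat.card_congr (Equiv.subtypeSubtypeEquivSubtypeInter (fun g => g ∈ ρ'.range)
      (fun g => g ∉ H))
  rw [← hcardeq]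
  set nZ : ℝ := (Nat.card {z : ρ'.range // (z : GL (Fin 2) k) ∉ H} : ℝ) with hnZ
  set nG : ℝ := (Nat.card ρ'.range : ℝ) with hnG
  have hGpos : 0 < nG := by
    rw [hnG]
    exact_mod_cast Nat.card_pos
  have key : ∀ s : ℝ, 1 < s → s ≤ 2 →
      ((1 - 1 / 2) * (nZ / nG) - 1 / 240) * Real.log (1 / (s - 1)) ≤ C₀ + C₁ := by
    intro s hs1 hs2
    obtain ⟨T, hT, hle⟩ := hC₁ s hs1 hs2
    have hT' : ∀ p ∈ T, p.Prime ∧ ¬ p ∣ N ∧ ModularFormClass.qCoeff f p ∉ Y := by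
      intro p hp
      obtain ⟨hpS, z, hz, hpr, A, σ, hA, hσ, hrσ⟩ := hT p hp
      have hpNℓ : ¬ p ∣ N * ℓ := not_dvd_of_notMem_primeFactors hpr hNℓ hpS
      have hpN : ¬ p ∣ N := fun h => hpNℓ (Dvd.dvd.mul_right h ℓ)
      refine ⟨hpr, hpN, fun hmem => hz ?_⟩
      have hai := (hInt N ε f hf).1 p hpr hpN
      have hei := isIntegral_dirichlet N ε (p : ZMod N)
      obtain ⟨h1, h2⟩ := hfrob p hpr hpNℓ ⟨_, hai⟩ ⟨_, hei⟩ rfl rfl A hA σ hσ
      have hz' : (z : GL (Fin 2) k) = ρ' σ := by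
        rw [← hrσ]
        rfl
      rw [hz']
      exact hH ⟨_, hai⟩ ⟨_, hei⟩ hmem (ρ' σ) h1 h2 ⟨_, rfl⟩
    have h2 := hY s hs1 hs2 T hT'
    have h3 : (1 - 1 / 2) * (nZ / nG) * Real.log (1 / (s - 1)) - C₁ ≤
        (1 / 240) * Real.log (1 / (s - 1)) + C₀ := hle.trans h2
    linarith
  have hle := le_zero_of_mul_log_le _ _ key
  have h4 : nZ / nG ≤ 1 / 120 := by linarith
  rw [div_le_iff₀ hGpos] at h4
  have h5 : 120 * nZ ≤ nG := by linarith
  rw [hnZ, hnG] at h5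
  exact_mod_cast h5

theorem modLift_of (hInt : Stmt_Int) (hRes : Stmt_ResRep) (hThin : Stmt_Thin)
    (hCS : Stmt_ChebSet) (hSS : Stmt_SS2) (hLift : Stmt_Lift) : Stmt_ModLift := by
  intro N _ ε f hf
  classical
  obtain ⟨Y, C₀, hY⟩ := hThin N ε f hf (1 / 240) (by norm_num)
  set E : Finset ℂ := Finset.univ.image (fun x : ZMod N => ε x) with hE
  obtain ⟨B, hB⟩ := groupBound' (Y.card * E.card)
  obtain ⟨ℓ₀, hℓ₀⟩ := hRes N ε f hf
  refine ⟨B, max ℓ₀ (max (B + 1) 3), fun ℓ hℓ hℓge k _ _ _ φ => ?_⟩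
  have hℓ1 : ℓ₀ ≤ ℓ := le_trans (le_max_left _ _) hℓge
  have hℓ2 : B + 1 ≤ ℓ := le_trans (le_trans (le_max_left _ _) (le_max_right _ _)) hℓge
  have hℓ3 : 3 ≤ ℓ := le_trans (le_trans (le_max_right _ _) (le_max_right _ _)) hℓge
  obtain ⟨ρ₀, hfl₀, hρ₀⟩ := hℓ₀ ℓ hℓ hℓ1 k φ
  obtain ⟨ρ', hss, hker, htd⟩ := hSS k Γℚ ρ₀
  have hfl' : GaloisFactorsThroughFiniteLevel ρ' :=
    finiteLevel_of_imp ρ₀ ρ' hker hfl₀
  haveI : Finite ρ'.range := Fermat.Agent.S48.H55.finite_range_of_finiteLevel ρ' hfl'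
  -- the finite set of characteristic polynomials
  set Yint : Finset (integralClosure ℤ ℂ) :=
    Y.preimage Subtype.val Subtype.val_injective.injOn with hYint
  set Eint : Finset (integralClosure ℤ ℂ) :=
    E.preimage Subtype.val Subtype.val_injective.injOn with hEint
  set Yφ : Finset (k × k) := (Yint ×ˢ Eint).image (fun x => (φ x.1, φ x.2)) with hYφ
  have hYφcard : Yφ.card ≤ Y.card * E.card := by
    refine (Finset.card_image_le).trans ?_
    rw [Finset.card_product]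
    refine Nat.mul_le_mul ?_ ?_
    · rw [← Finset.card_image_of_injective Yint Subtype.val_injective]
      exact Finset.card_le_card (by
        intro x hx
        obtain ⟨y, hy, rfl⟩ := Finset.mem_image.mp hx
        exact Finset.mem_preimage.mp hy)
    · rw [← Finset.card_image_of_injective Eint Subtype.val_injective]
      exact Finset.card_le_card (by
        intro x hx
        obtain ⟨y, hy, rfl⟩ := Finset.mem_image.mp hx
        exact Finset.mem_preimage.mp hy)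
  set H : Set (GL (Fin 2) k) :=
    {g | ((g : Matrix (Fin 2) (Fin 2) k).trace, (g : Matrix (Fin 2) (Fin 2) k).det) ∈ Yφ}
    with hHdef
  have hHY : ∀ h ∈ H,
      ((h : Matrix (Fin 2) (Fin 2) k).trace, (h : Matrix (Fin 2) (Fin 2) k).det) ∈ Yφ :=
    fun h hh => hh
  have hfrob : ∀ p : ℕ, p.Prime → ¬ p ∣ N * ℓ →
      ∀ a e : integralClosure ℤ ℂ, (a : ℂ) = ModularFormClass.qCoeff f p →
        (e : ℂ) = ε (p : ZMod N) →
        ∀ A : ValuationSubring (AlgebraicClosure ℚ), A.LiesOverPrime p →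
          ∀ σ : Γℚ, A.IsFrobeniusAt σ p →
            ((ρ' σ : GL (Fin 2) k) : Matrix (Fin 2) (Fin 2) k).trace = φ a ∧
            ((ρ' σ : GL (Fin 2) k) : Matrix (Fin 2) (Fin 2) k).det = φ e := by
    intro p hp hpNℓ a e ha he A hA σ hσ
    obtain ⟨h1, h2⟩ := (hρ₀ p hp hpNℓ a e ha he A hA).2 σ hσ
    exact ⟨(htd σ).1.trans h1, (htd σ).2.trans h2⟩
  have hH : ∀ a e : integralClosure ℤ ℂ, (a : ℂ) ∈ Y → ∀ g : GL (Fin 2) k,
      (g : Matrix (Fin 2) (Fin 2) k).trace = φ a → (g : Matrix (Fin 2) (Fin 2) k).det = φ e →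
      (∃ x : ZMod N, (e : ℂ) = ε x) → g ∈ H := by
    intro a e ha g h1 h2 ⟨x, hx⟩
    show ((g : Matrix (Fin 2) (Fin 2) k).trace, (g : Matrix (Fin 2) (Fin 2) k).det) ∈ Yφ
    rw [hYφ, Finset.mem_image]
    refine ⟨(a, e), Finset.mem_product.mpr ⟨Finset.mem_preimage.mpr ha,
      Finset.mem_preimage.mpr ?_⟩, by rw [h1, h2]⟩
    rw [hE, Finset.mem_image]
    exact ⟨x, Finset.mem_univ _, hx.symm⟩
  have hbad := card_bad_le hInt hCS N ε f hf Y C₀ hY ℓ hℓ k φ ρ' hfl' hfrob H hH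
  have hcardG : Nat.card ρ'.range ≤ B :=
    hB k ρ'.range H Yφ inferInstance hss hHY hYφcard hbad
  -- the lift
  have hndvd : ¬ ℓ ∣ Nat.card ρ'.range := by
    intro hd
    have h1 := Nat.le_of_dvd Nat.card_pos hd
    omega
  obtain ⟨R, hR⟩ := hLift ℓ k φ ρ'.range ρ'.range.subtype hℓ (by omega) hndvd
  refine ⟨R.comp ρ'.rangeRestrict, ?_, ?_, ?_⟩
  · refine finiteLevel_of_imp ρ' _ (fun σ hσ => ?_) hfl'
    have h1 : ρ'.rangeRestrict σ = 1 := Subtype.ext hσ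
    rw [MonoidHom.comp_apply, h1, map_one]
  · have h1 : Nat.card (R.comp ρ'.rangeRestrict).range ≤ Nat.card ρ'.range := by
      let g : ρ'.range → (R.comp ρ'.rangeRestrict).range := fun z =>
        ⟨R z, by
          obtain ⟨σ, hσ⟩ := ρ'.rangeRestrict_surjective z
          exact ⟨σ, by rw [MonoidHom.comp_apply, hσ]⟩⟩
      have hg : Function.Surjective g := by
        rintro ⟨y, σ, rfl⟩
        exact ⟨ρ'.rangeRestrict σ, rfl⟩
      exact Nat.card_le_card_of_surjective g hg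
    exact h1.trans hcardG
  · intro p hp hpNℓ A hA
    have hpN : ¬ p ∣ N := fun h => hpNℓ (Dvd.dvd.mul_right h ℓ)
    have hai := (hInt N ε f hf).1 p hp hpN
    have hei := isIntegral_dirichlet N ε (p : ZMod N)
    refine ⟨fun σ hσ => ?_, fun σ hσ t d a e ht hd ha he => ?_⟩
    · have h0 := (hρ₀ p hp hpNℓ ⟨_, hai⟩ ⟨_, hei⟩ rfl rfl A hA).1 σ hσ
      have h1 : ρ'.rangeRestrict σ = 1 := Subtype.ext (hker σ h0)
      rw [MonoidHom.comp_apply, h1, map_one]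
    · obtain ⟨t', d', ht', hd', hφt, hφd⟩ := hR (ρ'.rangeRestrict σ)
      obtain ⟨h1, h2⟩ := hfrob p hp hpNℓ a e ha he A hA σ hσ
      have htt : t = t' := Subtype.ext (ht.trans ht'.symm)
      have hdd : d = d' := Subtype.ext (hd.trans hd'.symm)
      rw [htt, hdd, hφt, hφd]
      exact ⟨h1, h2⟩

end Fermat.Agent.S48.Asm.H43
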