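import Fermat.Agent.S48.Asm.Defs
import Fermat.Agent.S48.H78_Lift

/-!
# S48 assembly leaf G-SS2: semisimplification in dimension two

If `ρ` has a stable line, `ρ' := diag(ψ₁, ψ₂)` for the two characters of
`H78.exists_chars_of_hasLine` (the range of `ρ'` is a diagonal group, so it is semisimple);
otherwise `ρ' := ρ` (no stable line at all).
-/

set_option autoImplicit false
set_option linter.style.haveILetI false

open Matrix

namespace Fermat.Agent.S48.Asm.H78

open Fermat.Agent.S48 Fermat.Agent.S48.H78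

/-- A group of diagonal matrices is semisimple. -/
theorem isSemisimple2_of_diagonal {k : Type} [Field k] (G : Subgroup (GL (Fin 2) k))
    (hG : ∀ g ∈ G, ∃ a b : k, ((g : GL (Fin 2) k) : Matrix (Fin 2) (Fin 2) k) =
      Matrix.diagonal ![a, b]) : IsSemisimple2 G := by
  intro v hv hstab
  have hmul : ∀ (a b : k) (u : Fin 2 → k), (Matrix.diagonal ![a, b]) *ᵥ u = ![a * u 0, b * u 1] := by
    intro a b u
    ext i
    fin_cases i <;> simp [Matrix.mulVec_diagonal]
  have hind : ∀ w : Fin 2 → k, v 0 * w 1 - v 1 * w 0 ≠ 0 → LinearIndependent k ![v, w] := by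
    intro w hdet
    rw [LinearIndependent.pair_iff]
    intro s t hst
    have h0 := congrFun hst 0
    have h1 := congrFun hst 1
    simp only [Pi.add_apply, Pi.smul_apply, smul_eq_mul, Pi.zero_apply] at h0 h1
    have hs : s * (v 0 * w 1 - v 1 * w 0) = 0 := by linear_combination w 1 * h0 - w 0 * h1
    have ht : t * (v 0 * w 1 - v 1 * w 0) = 0 := by linear_combination v 0 * h1 - v 1 * h0
    exact ⟨(mul_eq_zero.mp hs).resolve_right hdet, (mul_eq_zero.mp ht).resolve_right hdet⟩
  by_cases hv1 : v 1 = 0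
  · -- `v` is on the first axis: complement = second axis
    have hv0 : v 0 ≠ 0 := by
      intro h0
      apply hv
      ext i
      fin_cases i
      · exact h0
      · exact hv1
    refine ⟨![0, 1], hind _ (by simp [hv0]), fun g hg => ?_⟩
    obtain ⟨a, b, hab⟩ := hG g hg
    refine ⟨b, ?_⟩
    rw [hab, hmul]
    ext i
    fin_cases i <;> simp
  · by_cases hv0 : v 0 = 0
    · -- `v` is on the second axis: complement = first axis
      refine ⟨![1, 0], hind _ (by simp [hv1]), fun g hg => ?_⟩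
      obtain ⟨a, b, hab⟩ := hG g hg
      refine ⟨a, ?_⟩
      rw [hab, hmul]
      ext i
      fin_cases i <;> simp
    · -- `v` is off the axes: all elements are scalar
      refine ⟨![1, 0], hind _ (by simp [hv1]), fun g hg => ?_⟩
      obtain ⟨a, b, hab⟩ := hG g hg
      refine ⟨a, ?_⟩
      rw [hab, hmul]
      ext i
      fin_cases i <;> simp

/-- **G-SS2.** -/
theorem stmt_SS2 : Stmt_SS2 := by
  classical
  intro k _ Γ _ ρ
  set rm : Γ →* Matrix (Fin 2) (Fin 2) k := (Units.coeHom _).comp ρ with hrm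
  have hrm_apply : ∀ σ, rm σ = ((ρ σ : GL (Fin 2) k) : Matrix (Fin 2) (Fin 2) k) := fun σ => rfl
  by_cases hline : HasLine rm
  · obtain ⟨ψ₁, ψ₂, hψ⟩ := exists_chars_of_hasLine rm hline
    let Dm : Γ →* Matrix (Fin 2) (Fin 2) k :=
      { toFun := fun σ => Matrix.diagonal ![ψ₁ σ, ψ₂ σ]
        map_one' := by
          rw [map_one, map_one]
          ext i j
          fin_cases i <;> fin_cases j <;> simp
        map_mul' := by
          intro g h
          rw [Matrix.diagonal_mul_diagonal, map_mul, map_mul]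
          congr 1
          ext i
          fin_cases i <;> simp }
    have hD : ∀ σ, ((Dm.toHomUnits σ : GL (Fin 2) k) : Matrix (Fin 2) (Fin 2) k) =
        Matrix.diagonal ![ψ₁ σ, ψ₂ σ] := fun σ => rfl
    refine ⟨Dm.toHomUnits, ?_, ?_, ?_⟩
    · apply isSemisimple2_of_diagonal
      rintro g ⟨σ, rfl⟩
      exact ⟨ψ₁ σ, ψ₂ σ, hD σ⟩
    · intro σ hσ
      have h1 : rm σ = 1 := by rw [hrm_apply, hσ]; rfl
      have htr : ψ₁ σ + ψ₂ σ = 2 := by
        rw [← (hψ σ).1, h1, Matrix.trace_one]; simp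
      have hdet : ψ₁ σ * ψ₂ σ = 1 := by
        rw [← (hψ σ).2, h1, Matrix.det_one]
      have hsq : (ψ₁ σ - 1) * (ψ₁ σ - 1) = 0 := by
        linear_combination (ψ₁ σ) * htr - hdet
      have e1 : ψ₁ σ = 1 := sub_eq_zero.mp (mul_self_eq_zero.mp hsq)
      have e2 : ψ₂ σ = 1 := by rw [e1, one_mul] at hdet; exact hdet
      apply Units.ext
      rw [hD, e1, e2]
      ext i j
      fin_cases i <;> fin_cases j <;> simp
    · intro σ
      rw [hD, Matrix.trace_diagonal, Matrix.det_diagonal, Fin.sum_univ_two, Fin.prod_univ_two,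
        ← hrm_apply, (hψ σ).1, (hψ σ).2]
      exact ⟨rfl, rfl⟩
  · refine ⟨ρ, ?_, fun σ h => h, fun σ => ⟨rfl, rfl⟩⟩
    intro v hv hstab
    exfalso
    apply hline
    refine ⟨v, hv, fun σ => ?_⟩
    exact hstab (ρ σ) ⟨σ, rfl⟩

end Fermat.Agent.S48.Asm.H78
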