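import Mathlib
import Fermat.Agent.S23.H77_Fix

/-!
# S48 assembly leaf G-Thin, part 1: extension of embeddings to `ℂ`

`exists_ringHom_extend`: for a subfield `K` of `ℂ` algebraic over `ℚ`, every ring homomorphism
`φ : K →+* ℂ` is the restriction of a ring homomorphism `σ : ℂ →+* ℂ`.
-/

set_option autoImplicit false
set_option linter.style.haveILetI false

namespace Fermat.Agent.S48.Asm.H78

open MvPolynomial

/-- Every automorphism of `ℚ̄ ⊆ ℂ` extends to `ℂ`. -/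
theorem exists_ringEquiv_extend_algClosure
    (τ : algebraicClosure ℚ ℂ ≃ₐ[ℚ] algebraicClosure ℚ ℂ) :
    ∃ σ : ℂ ≃+* ℂ, ∀ x : algebraicClosure ℚ ℂ, σ (x : ℂ) = ((τ x : algebraicClosure ℚ ℂ) : ℂ) := by
  classical
  obtain ⟨s, hs⟩ := exists_isTranscendenceBasis (algebraicClosure ℚ ℂ) ℂ
  obtain ⟨σ, hσ⟩ := Fermat.Agent.S23.H77.exists_ringEquiv_of_mvPolynomial_equiv
    (K₀ := algebraicClosure ℚ ℂ) _ hs (MvPolynomial.mapEquiv s τ.toRingEquiv)
  refine ⟨σ, fun x => ?_⟩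
  have h := hσ (C x)
  have h3 : (MvPolynomial.mapEquiv s τ.toRingEquiv) (C x) = C (τ x) := by
    simp
  rw [h3] at h
  simp only [aeval_C] at h
  exact h

/-- Every embedding of a subfield of `ℂ`, algebraic over `ℚ`, extends to `ℂ`. -/
theorem exists_ringHom_extend (K : IntermediateField ℚ ℂ) [Algebra.IsAlgebraic ℚ K]
    (φ : K →+* ℂ) : ∃ σ : ℂ →+* ℂ, ∀ x : K, σ (x : ℂ) = φ x := by
  classical
  have hle : K ≤ algebraicClosure ℚ ℂ := by
    intro x hx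
    rw [mem_algebraicClosure_iff]
    have h1 : IsAlgebraic ℚ (⟨x, hx⟩ : K) := Algebra.IsAlgebraic.isAlgebraic _
    exact (isAlgebraic_algebraMap_iff (algebraMap K ℂ).injective).mpr h1
  -- `φ` lands in `ℚ̄`
  have hφmem : ∀ x : K, φ x ∈ algebraicClosure ℚ ℂ := by
    intro x
    rw [mem_algebraicClosure_iff]
    have h1 : IsAlgebraic ℚ x := Algebra.IsAlgebraic.isAlgebraic _
    exact IsAlgebraic.algHom φ.toRatAlgHom h1
  let ι : K →ₐ[ℚ] algebraicClosure ℚ ℂ := (IntermediateField.inclusion hle)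
  let φ' : K →ₐ[ℚ] algebraicClosure ℚ ℂ :=
    (φ.toRatAlgHom).codRestrict (algebraicClosure ℚ ℂ).toSubalgebra hφmem
  letI : Algebra K (algebraicClosure ℚ ℂ) := ι.toRingHom.toAlgebra
  haveI : IsScalarTower ℚ K (algebraicClosure ℚ ℂ) :=
    IsScalarTower.of_algebraMap_eq (fun q => (ι.commutes q).symm)
  haveI hcl : IsAlgClosure ℚ (algebraicClosure ℚ ℂ) := algebraicClosure.isAlgClosure ℚ ℂ
  haveI : Normal ℚ (algebraicClosure ℚ ℂ) :=
    (IsAlgClosure.isGalois ℚ (algebraicClosure ℚ ℂ)).to_normal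
  let ψ : algebraicClosure ℚ ℂ →ₐ[ℚ] algebraicClosure ℚ ℂ := φ'.liftNormal (algebraicClosure ℚ ℂ)
  have hψ : ∀ x : K, ψ (ι x) = φ' x := fun x => φ'.liftNormal_commutes (algebraicClosure ℚ ℂ) x
  let τ : algebraicClosure ℚ ℂ ≃ₐ[ℚ] algebraicClosure ℚ ℂ :=
    AlgEquiv.ofBijective ψ (Algebra.IsAlgebraic.algHom_bijective ψ)
  obtain ⟨σ, hσ⟩ := exists_ringEquiv_extend_algClosure τ
  refine ⟨σ.toRingHom, fun x => ?_⟩
  have h1 := hσ (ι x)
  have h2 : ((ι x : algebraicClosure ℚ ℂ) : ℂ) = (x : ℂ) := rfl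
  rw [h2] at h1
  show σ (x : ℂ) = φ x
  rw [h1]
  have h3 : τ (ι x) = φ' x := hψ x
  rw [h3]
  rfl

end Fermat.Agent.S48.Asm.H78
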