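import Fermat.Agent.S48.Asm.Defs
import Fermat.Agent.S48.Asm.H78_ThinExt

/-!
# S48 assembly leaf G-Thin: `Stmt_Int → Stmt_Rankin → Stmt_Thin`

`K = ℚ(a_p : p ∤ N)` is a number field (Int); each embedding `φ : K → ℂ` extends to
`σ : ℂ →+* ℂ` (`exists_ringHom_extend`); the conjugate form `f^σ` (Int) is again a DS form, so
Rankin bounds `∑_T |φ a_p|² p^{-s}`; the set `Y` of integers of `K` all of whose conjugates have
absolute value `≤ max 1 (r/η)` is finite (Northcott), and for `a_p ∉ Y` the sum over `φ` of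
`|φ a_p|²` is `≥ r/η`.
-/

set_option autoImplicit false
set_option linter.style.haveILetI false

open CongruenceSubgroup

namespace Fermat.Agent.S48.Asm.H78

open Fermat.Agent.S48 Fermat.Agent.S48.Asm

/-- The conjugate of a DS form is a DS form. -/
theorem isDSForm_conj (N : ℕ) [NeZero N] (ε : DirichletCharacter ℂ N)
    (f f' : CuspForm (Gamma1 N) 1) (σ : ℂ →+* ℂ) (hf : IsDSForm N ε f)
    (hf' : ∀ n : ℕ, ModularFormClass.qCoeff f' n = σ (ModularFormClass.qCoeff f n)) :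
    IsDSForm N (ε.ringHomComp σ) f' := by
  constructor
  · rw [hf', hf.one, map_one]
  · intro p hp hpN n
    have h := congrArg σ (hf.hecke p hp hpN n)
    simp only [map_add, map_mul, apply_ite σ, map_zero] at h
    simp only [hf', MulChar.ringHomComp_apply]
    exact h

/-- **G-Thin.** -/
theorem thin_of (hInt : Stmt_Int) (hR : Stmt_Rankin) : Stmt_Thin := by
  classical
  intro N _ ε f hf η hη
  obtain ⟨hint, hfd, hconj⟩ := hInt N ε f hf
  set K : IntermediateField ℚ ℂ := IntermediateField.adjoin ℚ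
    {x : ℂ | ∃ p : ℕ, p.Prime ∧ ¬ p ∣ N ∧ x = ModularFormClass.qCoeff f p} with hK
  haveI : FiniteDimensional ℚ K := hfd
  haveI : NumberField K := { to_charZero := inferInstance, to_finiteDimensional := hfd }
  haveI : Algebra.IsAlgebraic ℚ K := inferInstance
  -- the coefficients as elements of `K`
  set xK : ℕ → K := fun p =>
    if h : p.Prime ∧ ¬ p ∣ N then
      ⟨ModularFormClass.qCoeff f p, IntermediateField.subset_adjoin ℚ _ ⟨p, h.1, h.2, rfl⟩⟩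
    else 0 with hxK
  have hxK_coe : ∀ p : ℕ, p.Prime → ¬ p ∣ N → ((xK p : K) : ℂ) = ModularFormClass.qCoeff f p := by
    intro p hp hpN
    simp only [hxK, dif_pos (And.intro hp hpN)]
  -- Rankin for every conjugate
  have key : ∀ φ : K →+* ℂ, ∃ C : ℝ, ∀ s : ℝ, 1 < s → s ≤ 2 → ∀ T : Finset ℕ,
      (∀ p ∈ T, p.Prime ∧ ¬ p ∣ N) →
        ∑ p ∈ T, ‖φ (xK p)‖ ^ 2 * (p : ℝ) ^ (-s) ≤ Real.log (1 / (s - 1)) + C := by
    intro φ
    obtain ⟨σ, hσ⟩ := exists_ringHom_extend K φ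
    obtain ⟨f', hf'⟩ := hconj σ
    obtain ⟨C, hC⟩ := hR N (ε.ringHomComp σ) f' (isDSForm_conj N ε f f' σ hf hf')
    refine ⟨C, fun s hs1 hs2 T hT => ?_⟩
    have := hC s hs1 hs2 T hT
    refine le_trans (le_of_eq ?_) this
    refine Finset.sum_congr rfl (fun p hp => ?_)
    rw [hf', ← hxK_coe p (hT p hp).1 (hT p hp).2, hσ]
  choose C hC using key
  -- the finite set
  haveI : Nonempty (K →+* ℂ) := ⟨algebraMap K ℂ⟩
  set r : ℕ := Fintype.card (K →+* ℂ) with hr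
  have hrpos : 0 < r := Fintype.card_pos
  have hrR : (0 : ℝ) < r := by exact_mod_cast hrpos
  set c : ℝ := r / η with hc
  have hcpos : 0 < c := div_pos hrR hη
  set B : ℝ := max 1 c with hB
  have hfin := NumberField.Embeddings.finite_of_norm_le K ℂ B
  refine ⟨hfin.toFinset.image (fun x : K => (x : ℂ)), (∑ φ, C φ) / c, fun s hs1 hs2 T hT => ?_⟩
  have hT' : ∀ p ∈ T, p.Prime ∧ ¬ p ∣ N := fun p hp => ⟨(hT p hp).1, (hT p hp).2.1⟩
  -- for `p ∈ T` the sum of the squares of the conjugates is at least `c`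
  have hbig : ∀ p ∈ T, c ≤ ∑ φ : K →+* ℂ, ‖φ (xK p)‖ ^ 2 := by
    intro p hp
    obtain ⟨hpp, hpN, hpY⟩ := hT p hp
    have hnot : xK p ∉ {x : K | IsIntegral ℤ x ∧ ∀ φ : K →+* ℂ, ‖φ x‖ ≤ B} := by
      intro hmem
      apply hpY
      rw [Finset.mem_image]
      exact ⟨xK p, hfin.mem_toFinset.mpr hmem, hxK_coe p hpp hpN⟩
    have hintK : IsIntegral ℤ (xK p) := by
      have h1 : IsIntegral ℤ ((xK p : K) : ℂ) := by
        rw [hxK_coe p hpp hpN]; exact hint p hpp hpN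
      exact (isIntegral_algebraMap_iff (algebraMap K ℂ).injective).mp h1
    have hex : ∃ φ₀ : K →+* ℂ, B < ‖φ₀ (xK p)‖ := by
      by_contra hcon
      push Not at hcon
      exact hnot ⟨hintK, hcon⟩
    obtain ⟨φ₀, hφ₀⟩ := hex
    have h1 : (1 : ℝ) < ‖φ₀ (xK p)‖ := lt_of_le_of_lt (le_max_left _ _) hφ₀
    have h2 : c < ‖φ₀ (xK p)‖ := lt_of_le_of_lt (le_max_right _ _) hφ₀
    have h3 : c ≤ ‖φ₀ (xK p)‖ ^ 2 := by nlinarith
    refine h3.trans ?_
    exact Finset.single_le_sum (f := fun φ : K →+* ℂ => ‖φ (xK p)‖ ^ 2)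
      (fun φ _ => sq_nonneg _) (Finset.mem_univ φ₀)
  have hpow : ∀ p ∈ T, (0 : ℝ) ≤ (p : ℝ) ^ (-s) := fun p _ =>
    Real.rpow_nonneg (Nat.cast_nonneg p) _
  have hsum1 : c * ∑ p ∈ T, (p : ℝ) ^ (-s) ≤
      ∑ p ∈ T, (∑ φ : K →+* ℂ, ‖φ (xK p)‖ ^ 2) * (p : ℝ) ^ (-s) := by
    rw [Finset.mul_sum]
    exact Finset.sum_le_sum (fun p hp => mul_le_mul_of_nonneg_right (hbig p hp) (hpow p hp))
  have hsum2 : ∑ p ∈ T, (∑ φ : K →+* ℂ, ‖φ (xK p)‖ ^ 2) * (p : ℝ) ^ (-s) =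
      ∑ φ : K →+* ℂ, ∑ p ∈ T, ‖φ (xK p)‖ ^ 2 * (p : ℝ) ^ (-s) := by
    simp only [Finset.sum_mul]
    exact Finset.sum_comm
  have hsum3 : ∑ φ : K →+* ℂ, ∑ p ∈ T, ‖φ (xK p)‖ ^ 2 * (p : ℝ) ^ (-s) ≤
      (r : ℝ) * Real.log (1 / (s - 1)) + ∑ φ, C φ := by
    have : ∑ φ : K →+* ℂ, ∑ p ∈ T, ‖φ (xK p)‖ ^ 2 * (p : ℝ) ^ (-s) ≤
        ∑ φ : K →+* ℂ, (Real.log (1 / (s - 1)) + C φ) :=
      Finset.sum_le_sum (fun φ _ => hC φ s hs1 hs2 T hT')
    rw [Finset.sum_add_distrib, Finset.sum_const, Finset.card_univ, nsmul_eq_mul] at this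
    exact this
  have hall : c * ∑ p ∈ T, (p : ℝ) ^ (-s) ≤ (r : ℝ) * Real.log (1 / (s - 1)) + ∑ φ, C φ :=
    hsum1.trans (hsum2 ▸ hsum3)
  have hfinal : c * ∑ p ∈ T, (p : ℝ) ^ (-s) ≤
      c * (η * Real.log (1 / (s - 1)) + (∑ φ, C φ) / c) := by
    have e : c * (η * Real.log (1 / (s - 1)) + (∑ φ, C φ) / c) =
        (r : ℝ) * Real.log (1 / (s - 1)) + ∑ φ, C φ := by
      rw [hc]
      field_simp
    rw [e]
    exact hall
  exact le_of_mul_le_mul_left hfinal hcpos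

end Fermat.Agent.S48.Asm.H78
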