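import Fermat.Agent.S48.Wiring
import Fermat.Agent.S48.Asm.H43_ModLift
import Fermat.Agent.S48.Asm.H43_Away
import Fermat.Agent.S48.Asm.H43_Core
import Fermat.Agent.S48.Asm.H01_InjFin
import Fermat.Agent.S48.Asm.H01_TraceSet
import Fermat.Agent.S48.Asm.H01_TraceTwo
import Fermat.Agent.S48.Asm.H78_SS2
import Fermat.Agent.S48.Asm.H78_Thin
import Fermat.Agent.S48.Cheb.H43_BridgeSet
import Fermat.Agent.S48.Cheb.H78_Cheb
import Fermat.Agent.S48.H55_IrrCheb
import Fermat.Agent.S48.H55_Rankin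
import Fermat.Agent.S48.H78_Lift
import Fermat.Agent.S48.H78_DegOne

/-!
# S48: the assembly (helper43)

`S48_of_int_resRep : Stmt_Int → Stmt_ResRep → (frozen statement of S48)`.

Everything else is proved: Rankin (helper55), Chebotarev with loss (helper31, helper43, helper55,
helper78), GroupBound (helper55), Lift, DegOne, SS2, Thin (helper78), TraceSet, TraceTwo, InjFin
(helper1), Irr (helper55).
-/

set_option autoImplicit false

open CongruenceSubgroup
open scoped MatrixGroups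

namespace Fermat.Agent.S48.Asm

local notation "Γℚ" => (AlgebraicClosure ℚ ≃ₐ[ℚ] AlgebraicClosure ℚ)

/-- Chebotarev for subsets, unconditional. -/
theorem stmt_ChebSet : Stmt_ChebSet :=
  Fermat.Agent.S48.Cheb.H43.chebSet_of_nf Fermat.Agent.S48.Cheb.H78.stmt_ChebNF

/-- `Stmt_Irr`, unconditional. -/
theorem stmt_Irr : Fermat.Agent.S48.Stmt_Irr :=
  Fermat.Agent.S48.H55.stmt_Irr_of_cheb Fermat.Agent.S48.Cheb.H78.stmt_Cheb

/-- `Stmt_Thin` from `Stmt_Int`. -/
theorem stmt_Thin_of_int (hInt : Stmt_Int) : Stmt_Thin :=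
  H78.thin_of hInt Fermat.Agent.S48.H55.stmt_Rankin

/-- `Stmt_ModLift` from `Stmt_Int` and `Stmt_ResRep`. -/
theorem stmt_ModLift_of (hInt : Stmt_Int) (hRes : Stmt_ResRep) : Stmt_ModLift :=
  H43.modLift_of hInt hRes (stmt_Thin_of_int hInt) stmt_ChebSet H78.stmt_SS2
    Fermat.Agent.S48.H78.stmt_Lift

/-- `Stmt_Away` from `Stmt_Int` and `Stmt_ResRep`. -/
theorem stmt_Away_of (hInt : Stmt_Int) (hRes : Stmt_ResRep) : Stmt_Away :=
  H43.away_of hInt (stmt_ModLift_of hInt hRes) H01.stmt_InjFin H01.stmt_TraceSet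
    Fermat.Agent.S48.H78.stmt_DegOne

/-- **`Stmt_Core` from `Stmt_Int` and `Stmt_ResRep`.** -/
theorem stmt_Core_of (hInt : Stmt_Int) (hRes : Stmt_ResRep) : Stmt_Core :=
  H43.core_of (stmt_Away_of hInt hRes) stmt_ChebSet H01.stmt_TraceTwo

/-- **The frozen statement of S48 from `Stmt_Int` and `Stmt_ResRep`.** -/
theorem S48_of_int_resRep (hInt : Stmt_Int) (hRes : Stmt_ResRep)
    (N : ℕ) [NeZero N] (ε : DirichletCharacter ℂ N) (f : CuspForm (Gamma1 N) 1)
    (hf₁ : ModularFormClass.qCoeff f 1 = 1)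
    (hT : ∀ p : ℕ, p.Prime → ¬ p ∣ N → ∀ n : ℕ,
        ModularFormClass.qCoeff f (p * n) +
            ε (p : ZMod N) * (if p ∣ n then ModularFormClass.qCoeff f (n / p) else 0) =
          ModularFormClass.qCoeff f p * ModularFormClass.qCoeff f n) :
    ∃ ρ : Γℚ →* GL (Fin 2) ℂ, GaloisFactorsThroughFiniteLevel ρ ∧
      (Deformation.matrixRepresentation ρ).IsIrreducible ∧
      ∀ p : ℕ, p.Prime → ¬ p ∣ N →
        ∀ A : ValuationSubring (AlgebraicClosure ℚ), A.LiesOverPrime p →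
          (∀ σ ∈ A.inertiaSubgroupIn ℚ, ρ σ = 1) ∧
          ∀ σ : Γℚ, A.IsFrobeniusAt σ p →
            ((ρ σ : GL (Fin 2) ℂ) : Matrix (Fin 2) (Fin 2) ℂ).trace = ModularFormClass.qCoeff f p ∧
            ((ρ σ : GL (Fin 2) ℂ) : Matrix (Fin 2) (Fin 2) ℂ).det = ε (p : ZMod N) :=
  Fermat.Agent.S48.S48_of_core_irr (stmt_Core_of hInt hRes) stmt_Irr N ε f hf₁ hT

end Fermat.Agent.S48.Asm
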